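/-
IHARA / B (architect helper4): **Mazur's principle** (`IhwMazur` of `Lib/Ihara/W/Top.lean`),
the literal interfaces of the sub-packages.

Setting: `𝔓 | q` an `FFPlace` (`q = 𝔓.p`), `K` a rigid level (`4 ∣ K`), `q ∤ K`, `p ≥ 5` a prime `≠ q`;
`Z_∞ ≅ X₀(K)_{𝔽̄_q}` the `∞`-component of the reduction of `X₀(K q)`, function field `tbBarF 𝔓 K`;
`dlsRed 𝔓 K hK Y ∈ tbBarF 𝔓 K` the reduction (up to a constant) of `Y ∈ F_{Kq}ˣ` at the Gauss valuation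
`v_∞` (DELTA, `Lib/Delta/Slope/Red.lean`).

* `IhbRedDiv`   = (B1)+(B2): **unramified ⇒ the reduction has a `p`-divisible divisor**.  For a Kummer
  function `Y` (`p ∣ div Y`) whose class in `J₀(Kq)[p]` is fixed by the inertia group at `𝔓` and is an
  eigenvector of one `T_ℓ₀` with a non-Eisenstein eigenvalue: `p ∣ ord_s (dlsRed Y)` at all places `s` of
  `Z_∞`.  (Proof: descend `Y` to the inertia field (`t4d_descend`), DELTA's node calculus `dlc_cll_free`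
  with modulus `p` and the vertical unit (`v_0 − v_∞ = 12`, prime to `p`) gives the `DlsEis`-shape modulo
  `p`; then the Eisenstein exclusion `dle_eisenstein` modulo `p`.)
* `IhbCmp`      = (B3): **the comparison**: a system of eigenvalues which does not occur in
  `J₀(M)(ℚ̄)[p]` does not occur in `Pic⁰(𝔽̄_q(X₀(M)))[p]` (stated at the rigid level `M * 2`, for functions
  coming from the level `M`).
* `IhbToricFrob` = (B4): **the unsquared Frobenius relation on the toric part** `φ y ≡ (w_q y)^{-q}`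
  modulo `m`-th powers (the square of which is `T2fP4K`); only used when `q ≡ -1 mod p`.
* (B0) `ihb_mazur` (`Lib/Ihara/B/Main.lean`): `IhwMazur` from these.
-/
import Mathlib
import Fermat.Agent.Lib.Ihara.W.Top
import Fermat.Agent.Lib.Delta.Wire.Final
import Fermat.Agent.Lib.T2.F.ToricFinal

set_option autoImplicit false
set_option linter.unusedSectionVars false
set_option linter.unusedVariables false
set_option linter.style.haveILetI false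
set_option synthInstance.maxHeartbeats 400000

open WeierstrassCurve WeierstrassCurve.Affine WeierstrassCurve.Affine.Point

namespace Fermat.Agent.Ihara

open ModularCurve Fermat.Agent.T1 Fermat.Agent.T2 Fermat.Agent.TW Fermat.Agent.Delta
  Fermat.Agent.S33 Fermat.Agent.S05Lib AlgebraicCurve Fermat.Agent.Curve
  Fermat.Agent.T3 Fermat.Agent.Alpha ModularFormClass CongruenceSubgroup Fermat.Agent.S24Lib

local notation "Qb" => AlgebraicClosure ℚ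
local notation "GQ" => (AlgebraicClosure ℚ ≃ₐ[ℚ] AlgebraicClosure ℚ)

noncomputable section

attribute [local instance] s33g_neZero

/-- **(B1)+(B2)**: for a Kummer function `Y` of exponent `p` at the level `K q` whose class is fixed by
the inertia group at `𝔓 | q` and is a non-Eisenstein eigenvector of one `T_ℓ₀`, the reduction of `Y` on
`Z_∞` has a `p`-divisible divisor -/
def IhbRedDiv (𝔓 : FFPlace) (K : ℕ) [NeZero K] (hK : ¬ 𝔓.p ∣ K) (p : ℕ) (hp0 : p ≠ 0) : Prop :=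
  ∀ (Y : (↥(modularFunctionFieldBar (K * 𝔓.p)))ˣ)
    (hY : ∀ v : Place Qb ↥(modularFunctionFieldBar (K * 𝔓.p)),
      ((p : ℕ) : ℤ) ∣ v.ord (Y : ↥(modularFunctionFieldBar (K * 𝔓.p)))),
    (∀ σ ∈ 𝔓.I, σ • alpfClass hp0 Y hY = alpfClass hp0 Y hY) →
    (∃ (ℓ₀ : ℕ) (hℓ₀ : ℓ₀.Prime) (t : ℤ), ¬ ℓ₀ ∣ K * 𝔓.p ∧ ℓ₀ ≠ p ∧
      heckeOperatorBar (K * 𝔓.p) ⟨ℓ₀, hℓ₀⟩ (alpfClass hp0 Y hY) = t • alpfClass hp0 Y hY ∧
      ¬ (p : ℤ) ∣ (ℓ₀ : ℤ) + 1 - t) →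
    ∀ s : Place (IsLocalRing.ResidueField ↥𝔓.P) ↥(tbBarF 𝔓 K),
      (p : ℤ) ∣ s.ord (dlsRed 𝔓 K hK Y : ↥(tbBarF 𝔓 K))

/-- (B1)+(B2) at all rigid levels -/
def IhbRedDivAll : Prop :=
  ∀ (𝔓 : FFPlace) (K : ℕ) [NeZero K] (hK : ¬ 𝔓.p ∣ K), 4 ∣ K → ∀ (p : ℕ) (hp : p.Prime), 5 ≤ p →
    p ≠ 𝔓.p → IhbRedDiv 𝔓 K hK p hp.ne_zero

/-- **(B3)**, the comparison at the level `M` (through the rigid level `M * 2`): if the system of
eigenvalues of `W` does not occur in `J₀(M)(ℚ̄)[p]`, then every function `ȳ` of `𝔽̄_q(X₀(M))` with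
`p`-divisible divisor which is an eigenfunction (modulo constants and `p`-th powers) of the operators
`T̃_ℓ` with the eigenvalues of `W` is a constant times a `p`-th power -/
def IhbCmp (𝔓 : FFPlace) (M : ℕ) [NeZero M] (p : ℕ) (W : WeierstrassCurve ℤ) : Prop :=
  dlwEig M p W = ⊥ →
  ∀ yb : (↥(tbBarF 𝔓 (M * 2)))ˣ,
    (((yb : ↥(tbBarF 𝔓 (M * 2))) : LaurentSeries (IsLocalRing.ResidueField ↥𝔓.P)) ∈ tbBarF 𝔓 M) →
    (∀ s : Place (IsLocalRing.ResidueField ↥𝔓.P) ↥(tbBarF 𝔓 (M * 2)),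
      (p : ℤ) ∣ s.ord (yb : ↥(tbBarF 𝔓 (M * 2)))) →
    (∀ (ℓ : ℕ) [NeZero ℓ], ℓ.Prime → ¬ ℓ ∣ M * 2 * 𝔓.p → W.IsGoodPrimeFor ℓ → ℓ ≠ p →
      ∀ (ζ : (↥𝔓.P)ˣ)
        (hζK : IsPrimitiveRoot ((Units.map (𝔓.P.subtype : ↥𝔓.P →* Qb) ζ : Qbˣ) : Qb) ℓ)
        (hζk : IsPrimitiveRoot ((Units.map ((IsLocalRing.residue ↥𝔓.P : ↥𝔓.P →+*
          IsLocalRing.ResidueField ↥𝔓.P) : ↥𝔓.P →* IsLocalRing.ResidueField ↥𝔓.P) ζ :
          (IsLocalRing.ResidueField ↥𝔓.P)ˣ) : IsLocalRing.ResidueField ↥𝔓.P) ℓ),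
        ∃ (c : IsLocalRing.ResidueField ↥𝔓.P) (ub : (↥(tbBarF 𝔓 (M * 2)))ˣ), c ≠ 0 ∧
          tkrTilde ℓ hζk ((yb : ↥(tbBarF 𝔓 (M * 2))) :
              LaurentSeries (IsLocalRing.ResidueField ↥𝔓.P)) =
            HahnSeries.C c *
              (((yb ^ (W.apOfModel ℓ) * ub ^ p : (↥(tbBarF 𝔓 (M * 2)))ˣ) :
                ↥(tbBarF 𝔓 (M * 2))) : LaurentSeries (IsLocalRing.ResidueField ↥𝔓.P))) →
    ∃ (c : IsLocalRing.ResidueField ↥𝔓.P) (gb : (↥(tbBarF 𝔓 (M * 2)))ˣ), c ≠ 0 ∧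
      ((yb : ↥(tbBarF 𝔓 (M * 2))) : LaurentSeries (IsLocalRing.ResidueField ↥𝔓.P)) =
        HahnSeries.C c * (((gb ^ p : (↥(tbBarF 𝔓 (M * 2)))ˣ) : ↥(tbBarF 𝔓 (M * 2))) :
          LaurentSeries (IsLocalRing.ResidueField ↥𝔓.P))

/-- (B3) for all even levels -/
def IhbCmpAll : Prop :=
  ∀ (𝔓 : FFPlace) (M : ℕ) [NeZero M], 2 ∣ M → ¬ 𝔓.p ∣ M * 2 → 𝔓.p ≠ 2 →
    ∀ (p : ℕ), p.Prime → 5 ≤ p → p ≠ 𝔓.p → ¬ p ∣ M →
    ∀ W : WeierstrassCurve ℤ, W.Δ ≠ 0 → ((𝔓.p : ℕ) : ℤ) ∣ W.Δ → W.ModRepIsIrreducible p →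
      IhbCmp 𝔓 M p W

/-- **(B4)**, the unsquared Frobenius relation on the toric part: if `y ∈ tWsub` and both `y` and
`w_q y` are in `ℚ̄^× · (1 + 𝔪_A)` modulo `m`-th powers, then `φ y · (w_q y) ^ q` is an `m`-th power -/
def IhbToricFrob : Prop :=
  ∀ (N' q : ℕ) [NeZero N'] [Fact q.Prime] (h : ¬ q ∣ N') (A : ValuationSubring Qb),
    A.LiesOverPrime q → ∀ φ : GQ, A.IsFrobeniusAt φ q → ∀ m : ℕ, Nat.Coprime m q → m ≠ 0 →
      ∀ y : (↥(modularFunctionFieldBar (N' * q)))ˣ, y ∈ tWsub Qb (N' * q) m →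
        (∃ s : (↥(modularFunctionFieldBar (N' * q)))ˣ, T2fInf (N' * q) A (y * s ^ m)) →
        (∃ s : (↥(modularFunctionFieldBar (N' * q)))ˣ,
          T2fInf (N' * q) A (Units.map ((t2w Qb N' q h :
            ↥(modularFunctionFieldBar (N' * q)) ≃ₐ[Qb] ↥(modularFunctionFieldBar (N' * q))) :
            ↥(modularFunctionFieldBar (N' * q)) →* ↥(modularFunctionFieldBar (N' * q))) y
              * s ^ m)) →
        ∃ t : (↥(modularFunctionFieldBar (N' * q)))ˣ,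
          tkrSig (N' * q) φ y *
            (Units.map ((t2w Qb N' q h :
              ↥(modularFunctionFieldBar (N' * q)) ≃ₐ[Qb] ↥(modularFunctionFieldBar (N' * q))) :
              ↥(modularFunctionFieldBar (N' * q)) →* ↥(modularFunctionFieldBar (N' * q))) y) ^ q
            = t ^ m

end

end Fermat.Agent.Ihara
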