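/-
IHARA / B0 (helper4): **Mazur's principle from (B1)+(B2), (B3), (B4)**.

`ihb_core`: `P` a Frey package, `W` an integral model, `E[p]` irreducible, residually modular of the
level `M q` (squarefree, `q ≠ 2, p` odd, `p ∤ M`) but NOT of the level `M`, unramified at `q`.  Then for
every place `A | q` and every Frobenius element `φ` at `A`: `p ∣ q - 1` and `φ` acts on `E[p]` as a
scalar.

Proof. `V₀ ≅ W[p]` in the `W`-eigenspace of `J₀(M q)[p]` (`dlw_exists_eigen`, `dlw_exists_iso`); `2 ∣ M`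
(`dlw_two_dvd_level`); the eigensystem does not occur in `J₀(M)[p]` (`dlw_D0`); so every point of `V₀` and
its image under `w_q` is toric at the rigid level `2 M q` (`ihb_toric`: (B1)+(B2)+(B3)), hence
`φ² = q²` on `V₀` (`t2f_P4K`); `det φ = q` (`ihb_det_frob`).  Cayley–Hamilton: `φ` is a scalar, or
`q ≡ -1 mod p`; in the latter case (B4) gives `φ = w_q` on `V₀`, so `φ` commutes with `G_ℚ` on `W[p]`
and is a scalar by irreducibility.  A scalar `φ` with `φ² = q²`, `det φ = q` forces `q ≡ 1 mod p`.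

`ihb_mazur : IhbRedDivAll → IhbCmpAll → IhbToricFrob → IhwMazur`.
-/
import Mathlib
import Fermat.Agent.Lib.Ihara.B.Wire.Core
import Fermat.Agent.Lib.Ihara.B.Wire.LinAlg
import Fermat.Agent.Lib.Ihara.B.Wire.Galois

set_option autoImplicit false
set_option linter.unusedSectionVars false
set_option linter.unusedVariables false
set_option linter.style.haveILetI false
set_option synthInstance.maxHeartbeats 400000
set_option maxHeartbeats 2000000

open WeierstrassCurve WeierstrassCurve.Affine WeierstrassCurve.Affine.Point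

namespace Fermat.Agent.Ihara

open ModularCurve Fermat.Agent.T1 Fermat.Agent.T2 Fermat.Agent.TW Fermat.Agent.Delta
  Fermat.Agent.S33 Fermat.Agent.S33Q Fermat.Agent.S05Lib AlgebraicCurve Fermat.Agent.Curve
  Fermat.Agent.T3 Fermat.Agent.Alpha ModularFormClass CongruenceSubgroup Fermat.Agent.S24Lib
  Fermat.Agent.S13Lib Fermat.Agent.S58

local notation "Qb" => AlgebraicClosure ℚ
local notation "GQ" => (AlgebraicClosure ℚ ≃ₐ[ℚ] AlgebraicClosure ℚ)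

noncomputable section

attribute [local instance] s33g_neZero
attribute [local instance] t2gp_fact

/-- **the core of Mazur's principle** -/
theorem ihb_core (h1 : IhbRedDivAll) (h3 : IhbCmpAll) (h4 : IhbToricFrob)
    (P : FreyPackage) (W : WeierstrassCurve ℤ) (hWE : W.IsIntegralModelOf P.freyCurve)
    (hirr : GaloisRepIsIrreducible (K := Qb) ℚ P.freyCurve P.p)
    (M q : ℕ) (hMpos : 0 < M) (hq : q.Prime) (hq2 : q ≠ 2) (hqp : q ≠ P.p) (hqM : ¬ q ∣ M)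
    (hpM : ¬ P.p ∣ M) (hqabc : (q : ℤ) ∣ P.a * P.b * P.c)
    (hunr : P.GaloisRepUnramifiedAt q)
    (hres : W.IsResiduallyModularOfLevel P.p (M * q))
    (hnot : ¬ W.IsResiduallyModularOfLevel P.p M)
    (A : ValuationSubring Qb) (hA : A.LiesOverPrime q) (φ : GQ) (hφ : A.IsFrobeniusAt φ q) :
    P.p ∣ q - 1 ∧ ∃ c : ℤ, ∀ x : Submodule.torsionBy ℤ (P.freyCurve.toAffine⁄Qb).Point P.p,
      φ • x = c • x := by
  classical
  haveI : Fact P.p.Prime := ⟨P.pp⟩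
  haveI : NeZero M := ⟨hMpos.ne'⟩
  haveI : NeZero q := ⟨hq.ne_zero⟩
  haveI : NeZero (M * q) := ⟨Nat.mul_ne_zero hMpos.ne' hq.ne_zero⟩
  have hp5 := P.hp5
  have hp2 : P.p ≠ 2 := by omega
  have hp0 : P.p ≠ 0 := P.pp.ne_zero
  have hpq : P.p ≠ q := fun h => hqp h.symm
  have hΔ := dlw_frey_model_Δ P hWE
  haveI := dlw_frey_isElliptic P hWE
  have hqΔ := ihb_dvd_Δ_of_model P hWE hq hqabc
  obtain ⟨C, hC⟩ := hWE
  have hirrW : W.ModRepIsIrreducible P.p := by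
    have hirr' : GaloisRepIsIrreducible (K := Qb) ℚ (C • P.freyCurve).toAffine P.p :=
      (Fermat.Agent.X015.galoisRepIsIrreducible_variableChange_iff P.freyCurve C P.p).mpr hirr
    rw [hC] at hirr'
    exact hirr'
  -- the copy of `W[p]` in `J₀(M q)[p]`
  obtain ⟨f, 𝔪, hf, hmax, hpm, hcong⟩ := hres
  obtain ⟨x₀, hx₀, hx₀p, hx₀e⟩ :=
    dlw_exists_eigen (N := M * q) (p := P.p) (W := W) f 𝔪 hf hmax hpm hcong
  obtain ⟨V₀, ψ, hle, hstab, hψ⟩ := dlw_exists_iso (M * q) hp2 W hΔ hirrW x₀ hx₀ ⟨hx₀p, hx₀e⟩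
  have htor : ∀ x ∈ V₀, P.p • x = 0 := fun x hx => (hle hx).1
  have heig : ∀ (ℓ : ℕ) (hℓ : ℓ.Prime), ¬ ℓ ∣ M * q → W.IsGoodPrimeFor ℓ → ℓ ≠ P.p →
      ∀ x ∈ V₀, heckeOperatorBar (M * q) ⟨ℓ, hℓ⟩ x = W.apOfModel ℓ • x :=
    fun ℓ hℓ hℓN hgood hℓp x hx => (hle hx).2 ℓ hℓ hℓN hgood hℓp
  -- `E[p] ≅ W[p]`
  obtain ⟨φ₂, hφ₂⟩ := exists_equivariant_equiv_of_eq P.freyCurve (s58E W) C hC.symm
  obtain ⟨ψ₂, hψ₂⟩ := dlw_tors_equiv φ₂ P.p
  have hψ₂σ : ∀ (σ : GQ) (Q : ↥(Submodule.torsionBy ℤ (P.freyCurve.toAffine⁄Qb).Point (P.p : ℤ))),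
      ψ₂ (σ • Q) = σ • ψ₂ Q := by
    intro σ Q
    apply Subtype.ext
    rw [hψ₂]
    show φ₂ (σ • (Q : (P.freyCurve.toAffine⁄Qb).Point)) = σ • ((ψ₂ Q : _) : _)
    rw [hφ₂, hψ₂]
  have hΨ : ∀ (σ : GQ) (Q : ↥(Submodule.torsionBy ℤ (P.freyCurve.toAffine⁄Qb).Point (P.p : ℤ))),
      (((ψ₂.trans ψ) (σ • Q) : ↥V₀) : JZero (M * q)) = σ • (((ψ₂.trans ψ) Q : ↥V₀) : JZero (M * q)) := by
    intro σ Q
    rw [AddEquiv.trans_apply, AddEquiv.trans_apply, hψ₂σ, hψ]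
  -- the level is even
  have h2N := dlw_two_dvd_level P V₀ (ψ₂.trans ψ) htor hΨ
  have h2M : 2 ∣ M := by
    rcases (Nat.Prime.dvd_mul Nat.prime_two).mp h2N with h | h
    · exact h
    · exact absurd ((Nat.prime_dvd_prime_iff_eq Nat.prime_two hq).mp h).symm hq2
  -- the eigensystem does not occur at the level `M`
  have hEig : dlwEig M P.p W = ⊥ := by
    rw [AddSubgroup.eq_bot_iff_forall]
    intro y hy
    by_contra hy0
    exact hnot (dlw_D0 M P.p W y hy0 hy.1 hy.2)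
  -- the place
  obtain ⟨𝔓, h𝔓P, h𝔓p⟩ : ∃ 𝔓 : FFPlace, 𝔓.P = A ∧ 𝔓.p = q := ⟨⟨A, q, hq, hA⟩, rfl, rfl⟩
  subst h𝔓P
  subst h𝔓p
  have hK : ¬ 𝔓.p ∣ M * 2 := by
    intro h
    rcases (Nat.Prime.dvd_mul hq).mp h with h | h
    · exact hqM h
    · exact hq2 ((Nat.prime_dvd_prime_iff_eq hq Nat.prime_two).mp h)
  -- a non-Eisenstein prime
  obtain ⟨ℓ₀, hℓ₀, hℓ₀T, hgood₀, hne⟩ := Fermat.Agent.LR.lre_exists_prime_not_eisenstein
    P.freyCurve ⟨C, hC⟩ P.pp hp2 hirr (insert P.p (M * 2 * 𝔓.p).primeFactors)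
  rw [Finset.mem_insert, not_or] at hℓ₀T
  have hℓ₀p : ℓ₀ ≠ P.p := hℓ₀T.1
  have hℓ₀N : ¬ ℓ₀ ∣ M * 2 * 𝔓.p := fun h =>
    hℓ₀T.2 (Nat.mem_primeFactors.mpr ⟨hℓ₀, h,
      Nat.mul_ne_zero (Nat.mul_ne_zero hMpos.ne' two_ne_zero) hq.ne_zero⟩)
  -- the inertia group acts trivially on `V₀`
  have hI : ∀ σ ∈ 𝔓.I, ∀ x ∈ V₀, σ • x = x := by
    intro σ hσ x hx
    obtain ⟨Q, hQ⟩ : ∃ Q, (((ψ₂.trans ψ) Q : ↥V₀) : JZero (M * 𝔓.p)) = x :=
      ⟨(ψ₂.trans ψ).symm ⟨x, hx⟩, by rw [AddEquiv.apply_symm_apply]⟩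
    have h0 : σ • Q = Q := hunr 𝔓.P hA σ hσ Q
    rw [← hQ, ← hΨ, h0]
  -- the Frobenius relations on `V₀`
  have hsqV : ∀ x ∈ V₀, φ • φ • x = (𝔓.p ^ 2) • x := fun x hx =>
    ihb_V_frob_sq h1 h3 𝔓 M h2M hK hq2 P.p P.pp hp5 hpq hpM W hΔ hqΔ hirrW hEig ℓ₀ hℓ₀ hℓ₀N hℓ₀p
      hgood₀ hne V₀ htor hI heig hφ x hx
  have hwV := fun x hx =>
    ihb_V_frob_w h1 h3 𝔓 M h2M hK hq2 P.p P.pp hp5 hpq hpM W hΔ hqΔ hirrW hEig ℓ₀ hℓ₀ hℓ₀N hℓ₀p
      hgood₀ hne V₀ htor hI heig h4 hφ x hx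
  -- linear algebra on `W[p]`
  obtain ⟨hfree, hfin, hrank⟩ := s58m_free W hΔ P.pp (pow_one P.p).symm
  haveI := hfree
  haveI := hfin
  have h2 : Module.finrank (ZMod P.p) (S58Tors W P.p) = 2 := hrank one_ne_zero
  obtain ⟨g, hg⟩ : ∃ g : Module.End (ZMod P.p) (S58Tors W P.p), g = s58Gal W P.p φ := ⟨_, rfl⟩
  have hgapp : ∀ Q : S58Tors W P.p, g Q = φ • Q := by
    intro Q
    rw [hg]
    exact galoisRepModuleEnd_apply _ _ _ _
  have hq0 : ((𝔓.p : ℕ) : ZMod P.p) ≠ 0 := by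
    rw [Ne, ZMod.natCast_eq_zero_iff]
    intro h
    exact hpq ((Nat.prime_dvd_prime_iff_eq P.pp hq).mp h)
  have hψinj : ∀ Q Q' : S58Tors W P.p,
      ((ψ Q : ↥V₀) : JZero (M * 𝔓.p)) = ((ψ Q' : ↥V₀) : JZero (M * 𝔓.p)) → Q = Q' :=
    fun Q Q' h => ψ.injective (Subtype.ext h)
  have hgsq : g * g =
      (((𝔓.p : ℕ) : ZMod P.p) ^ 2) • (1 : Module.End (ZMod P.p) (S58Tors W P.p)) := by
    apply LinearMap.ext
    intro Q
    apply hψinj
    rw [Module.End.mul_apply, hgapp, hgapp, hψ, hψ, hsqV _ (ψ Q).2, LinearMap.smul_apply,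
      Module.End.one_apply, ← Nat.cast_pow, Nat.cast_smul_eq_nsmul, map_nsmul,
      AddSubgroup.coe_nsmul]
  have hdet : LinearMap.det g = ((𝔓.p : ℕ) : ZMod P.p) := by
    rw [hg]
    exact ihb_det_frob W hΔ P.pp hq hpq hA hφ
  -- `φ` is a scalar
  have hscal : ∃ c : ZMod P.p, g = c • (1 : Module.End (ZMod P.p) (S58Tors W P.p)) := by
    rcases ihb_scalar_or h2 g _ hq0 hgsq hdet with hc | ⟨hqm1, hgg⟩
    · exact hc
    · -- `q ≡ -1 mod p`: `φ = w_q` on `V₀`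
      have hMK : M ∣ M * 2 := Dvd.intro 2 rfl
      have hdvd : M * 𝔓.p ∣ M * 2 * 𝔓.p := Nat.mul_dvd_mul_right hMK 𝔓.p
      have hpdvd : P.p ∣ 𝔓.p + 1 := by
        rw [← ZMod.natCast_eq_zero_iff]
        push_cast
        rw [hqm1]
        ring
      have key : ∀ x ∈ V₀, dlwPullDvd hdvd (φ • x) =
          dleWJ (M * 2) 𝔓.p hK (dlwPullDvd hdvd x) := by
        intro x hx
        have h0 := hwV x hx
        have h5 : (𝔓.p + 1) • dleWJ (M * 2) 𝔓.p hK (dlwPullDvd hdvd x) = 0 := by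
          obtain ⟨k, hk⟩ := hpdvd
          have h7 : P.p • dleWJ (M * 2) 𝔓.p hK (dlwPullDvd hdvd x) = 0 := by
            rw [← map_nsmul, ← map_nsmul, htor x hx, _root_.map_zero, _root_.map_zero]
          rw [hk, mul_nsmul, h7, nsmul_zero]
        rw [add_nsmul, one_nsmul] at h5
        have h6 := h0.trans h5.symm
        rw [add_comm] at h6
        exact add_left_cancel h6
      have comm : ∀ (σ : GQ), ∀ x ∈ V₀, φ • σ • x = σ • φ • x := by
        intro σ x hx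
        have e1 : dlwPullDvd hdvd (φ • σ • x) = dlwPullDvd hdvd (σ • φ • x) := by
          rw [key (σ • x) (hstab σ x hx), dlwPullDvd_galois, dleWJ_galois, ← key x hx,
            ← dlwPullDvd_galois]
        have hmem : φ • σ • x - σ • φ • x ∈ V₀ :=
          V₀.sub_mem (hstab φ _ (hstab σ x hx)) (hstab σ _ (hstab φ x hx))
        have e2 : dlwPullDvd hdvd (φ • σ • x - σ • φ • x) = 0 := by
          rw [map_sub, e1, sub_self]
        exact sub_eq_zero.mp (dlwPullDvd_eq_zero hdvd hp0 _ (htor _ hmem) e2)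
      have hcomm : ∀ σ' ∈ Set.range (s58Gal W P.p), σ' * g = g * σ' := by
        rintro _ ⟨σ, rfl⟩
        apply LinearMap.ext
        intro Q
        apply hψinj
        rw [Module.End.mul_apply, Module.End.mul_apply, hgapp, hgapp]
        have e3 : ∀ Q' : S58Tors W P.p, (s58Gal W P.p σ) Q' = σ • Q' :=
          fun Q' => galoisRepModuleEnd_apply _ _ _ _
        rw [e3, e3, hψ, hψ, hψ, hψ]
        exact (comm σ _ (ψ Q).2).symm
      have hirr' : ∀ N : Submodule (ZMod P.p) (S58Tors W P.p),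
          (∀ σ' ∈ Set.range (s58Gal W P.p), ∀ x ∈ N, σ' x ∈ N) → N = ⊥ ∨ N = ⊤ := by
        intro N hN
        refine hirrW.2 N (fun σ x hx => ?_)
        have := hN (s58Gal W P.p σ) ⟨σ, rfl⟩ x hx
        rwa [galoisRepModuleEnd_apply] at this
      rcases ihb_scalar_of_commute g hgg (Set.range (s58Gal W P.p)) hirr' hcomm with h | h
      · exact ⟨1, by rw [h, one_smul]⟩
      · exact ⟨-1, by rw [h, neg_smul, one_smul]⟩
  obtain ⟨c, hc⟩ := hscal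
  have hq1 : ((𝔓.p : ℕ) : ZMod P.p) = 1 := ihb_eq_one_of_scalar h2 g _ hq0 hgsq hdet c hc
  constructor
  · have h3 : ((𝔓.p : ℕ) : ZMod P.p) = ((1 : ℕ) : ZMod P.p) := by rw [hq1, Nat.cast_one]
    have hmod := (ZMod.natCast_eq_natCast_iff _ _ _).mp h3
    exact (Nat.modEq_iff_dvd' hq.one_lt.le).mp hmod.symm
  · refine ⟨((c.val : ℕ) : ℤ), fun x => ?_⟩
    apply ψ₂.injective
    rw [hψ₂σ, map_zsmul, ← hgapp, hc, LinearMap.smul_apply, Module.End.one_apply, natCast_zsmul,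
      ← Nat.cast_smul_eq_nsmul (ZMod P.p), ZMod.natCast_zmod_val]

/-- **(B0)**: Mazur's principle from the three inputs -/
theorem ihb_mazur (h1 : IhbRedDivAll) (h3 : IhbCmpAll) (h4 : IhbToricFrob) : IhwMazur := by
  intro P W hWE hirr M q hMpos hsq hq hq2 hqp hqM hpM habc hunr hnC hres
  by_contra hnot
  obtain ⟨A, φ, hA, hφ⟩ := Fermat.Agent.Lib.Helper6.exists_frobenius q hq
  have hqabc : (q : ℤ) ∣ P.a * P.b * P.c := habc q hq (dvd_mul_left q M)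
  have hcore := fun (A : ValuationSubring Qb) (hA : A.LiesOverPrime q) (φ : GQ)
      (hφ : A.IsFrobeniusAt φ q) =>
    ihb_core h1 h3 h4 P W hWE hirr M q hMpos hq hq2 hqp hqM hpM hqabc hunr hres hnot A hA φ hφ
  exact hnC ⟨(hcore A hA φ hφ).1, fun A' hA' φ' hφ' => (hcore A' hA' φ' hφ').2⟩

end

end Fermat.Agent.Ihara
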