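/-
IHARA / B (helper4): **`IhwMazur` from (B3) alone**: (B1)+(B2) = `ihb_redDivAll` (helper4),
(B4) = `ihbf_all` (lead), (B0) = `ihb_mazur`.
-/
import Mathlib
import Fermat.Agent.Lib.Ihara.B.Main
import Fermat.Agent.Lib.Ihara.B.Frob.Main

set_option autoImplicit false

namespace Fermat.Agent.Ihara

/-- (B4), from lead's `ihbf_all` -/
theorem ihb_toricFrob : IhbToricFrob := ihbf_all

/-- **Mazur's principle from the comparison (B3)** -/
theorem ihb_mazur_of_cmp (h3 : IhbCmpAll) : IhwMazur :=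
  ihb_mazur ihb_redDivAll h3 ihb_toricFrob

end Fermat.Agent.Ihara
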