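/-
IHARA / B: **Mazur's principle `IhwMazur` is proved**: `ihb_mazur_of_cmp` (helper4, (B0)+(B1)+(B2), with
lead's (B4)) applied to `ihbc_cmpAll` (helper3 (B3), with helper6's (q1) and lead's (q3)).
-/
import Mathlib
import Fermat.Agent.Lib.Ihara.B.Mazur
import Fermat.Agent.Lib.Ihara.B.Cmp.Final

set_option autoImplicit false

namespace Fermat.Agent.Ihara

/-- **Mazur's principle** -/
theorem ihb_mazur_closed : IhwMazur := ihb_mazur_of_cmp ihbc_cmpAll

end Fermat.Agent.Ihara
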